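import Mathlib.Analysis.Complex.BorelCaratheodory
import Mathlib.Analysis.Complex.HasPrimitives
import Mathlib.Analysis.Complex.RemovableSingularity
import Mathlib.Analysis.Complex.AbsMax
import Mathlib.Analysis.Complex.Liouville

/-!
# Landau's lemma

If `‖f‖ ≤ B ‖f 0‖` on the circle of radius `r` and the zeros within `r / 3` of the origin have
negative real part, then `-re (f'/f) (0) ≤ 6 log B / r + re (1 / ρ)` for any one of those zeros.
Each zero removed halves `B`, so finitely many steps leave a zero-free disc, where the theorem of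
Borel and Carathéodory applies to the logarithm.
-/

set_option autoImplicit false

noncomputable section

namespace FA.DLVP

open Complex Metric Set Filter Topology

variable {f : ℂ → ℂ} {U : Set ℂ} {r B : ℝ}

/-- A logarithm on a disc. -/
theorem exists_log {R : ℝ} (hR : 0 < R) (hf : DifferentiableOn ℂ f (ball 0 R))
    (hne : ∀ z ∈ ball (0 : ℂ) R, f z ≠ 0) :
    ∃ h : ℂ → ℂ, h 0 = 0 ∧ (∀ z ∈ ball (0 : ℂ) R, HasDerivAt h (deriv f z / f z) z) ∧
      ∀ z ∈ ball (0 : ℂ) R, f z = f 0 * exp (h z) := by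
  have hd : DifferentiableOn ℂ (fun z => deriv f z / f z) (ball 0 R) :=
    (hf.deriv isOpen_ball).div hf hne
  obtain ⟨g, hg⟩ := hd.isExactOn_ball
  refine ⟨fun z => g z - g 0, sub_self _, fun z hz => (hg z hz).sub_const _, fun z hz => ?_⟩
  set q : ℂ → ℂ := fun z => f z * exp (-(g z - g 0))
  have hq : ∀ w ∈ ball (0 : ℂ) R, HasDerivAt q 0 w := fun w hw => by
    have h1 := ((hf w hw).differentiableAt (isOpen_ball.mem_nhds hw)).hasDerivAt
    have h2 := ((hg w hw).sub_const (g 0)).neg.cexp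
    refine (h1.mul h2).congr_deriv ?_
    have := hne w hw
    field_simp
    ring
  have hconst : q z = q 0 := (convex_ball (0 : ℂ) R).is_const_of_fderivWithin_eq_zero
    (𝕜 := ℂ) (fun w hw => (hq w hw).differentiableAt.differentiableWithinAt) (fun w hw => by
      rw [fderivWithin_of_isOpen isOpen_ball hw]
      exact ((hq w hw).hasFDerivAt).fderiv.trans (by simp)) hz (mem_ball_self hR)
  simp only [q, sub_self, neg_zero, exp_zero, mul_one] at hconst
  show f z = f 0 * exp (g z - g 0)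
  rw [← hconst, mul_assoc, ← exp_add, neg_add_cancel, exp_zero, mul_one]

/-- The maximum principle on a disc. -/
theorem norm_le_of_sphere (hsub : closedBall (0 : ℂ) r ⊆ U) (hr : 0 < r)
    (hf : DifferentiableOn ℂ f U) {C : ℝ} (hC : ∀ z ∈ sphere (0 : ℂ) r, ‖f z‖ ≤ C) {z : ℂ}
    (hz : z ∈ closedBall (0 : ℂ) r) : ‖f z‖ ≤ C := by
  have hd : DiffContOnCl ℂ f (ball (0 : ℂ) r) := by
    refine DifferentiableOn.diffContOnCl ?_
    rw [closure_ball _ hr.ne']
    exact hf.mono hsub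
  refine norm_le_of_forall_mem_frontier_norm_le isBounded_ball hd ?_ ?_
  · rwa [frontier_ball _ hr.ne']
  · rwa [closure_ball _ hr.ne']

/-- The bound of Borel and Carathéodory for the logarithm. -/
theorem norm_log_le {R : ℝ} (hR : 0 < R) (hf : DifferentiableOn ℂ f (ball 0 R))
    (hne : ∀ z ∈ ball (0 : ℂ) R, f z ≠ 0) (hB : 1 < B)
    (hb : ∀ z ∈ ball (0 : ℂ) R, ‖f z‖ ≤ B * ‖f 0‖) :
    ∃ h : ℂ → ℂ, (∀ z ∈ ball (0 : ℂ) R, HasDerivAt h (deriv f z / f z) z) ∧
      ∀ z ∈ ball (0 : ℂ) R, ‖h z‖ ≤ 2 * Real.log B * ‖z‖ / (R - ‖z‖) := by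
  obtain ⟨h, h0, hder, hexp⟩ := exists_log hR hf hne
  refine ⟨h, hder, fun z hz => borelCaratheodory_zero (Real.log_pos hB)
    (fun w hw => (hder w hw).differentiableAt.differentiableWithinAt) ?_ hR hz h0⟩
  intro w hw
  have h1 := hb w hw
  rw [hexp w hw, norm_mul, Complex.norm_exp, mul_comm] at h1
  show (h w).re ≤ Real.log B
  rw [Real.le_log_iff_exp_le (by linarith)]
  exact le_of_mul_le_mul_right h1 (norm_pos_iff.2 (hne 0 (mem_ball_self hR)))

/-- Without zeros the logarithmic derivative at the centre is at most `2 log B / R`. -/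
theorem norm_logDeriv_le {R : ℝ} (hR : 0 < R) (hf : DifferentiableOn ℂ f (ball 0 R))
    (hne : ∀ z ∈ ball (0 : ℂ) R, f z ≠ 0) (hB : 1 ≤ B)
    (hb : ∀ z ∈ ball (0 : ℂ) R, ‖f z‖ ≤ B * ‖f 0‖) :
    ‖deriv f 0 / f 0‖ ≤ 2 * Real.log B / R := by
  refine le_of_forall_pos_le_add fun η hη => ?_
  set δ := min (η * R / 8) 1
  have hδ : 0 < δ := lt_min (by positivity) one_pos
  set B' := B * Real.exp δ
  have hB' : 1 < B' := one_lt_mul_of_le_of_lt hB (Real.one_lt_exp_iff.2 hδ)
  have hb' : ∀ z ∈ ball (0 : ℂ) R, ‖f z‖ ≤ B' * ‖f 0‖ := fun z hz =>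
    (hb z hz).trans (mul_le_mul_of_nonneg_right
      (le_mul_of_one_le_right (by linarith) (Real.one_le_exp hδ.le)) (norm_nonneg _))
  obtain ⟨h, hder, hh⟩ := norm_log_le hR hf hne hB' hb'
  have hlog : Real.log B' = Real.log B + δ := by
    rw [Real.log_mul (by linarith) (Real.exp_pos δ).ne', Real.log_exp]
  -- the limit at the centre of Cauchy's bound
  have hlim : Tendsto (fun s : ℝ => 2 * Real.log B' / (R - s)) (𝓝[>] 0)
      (𝓝 (2 * Real.log B' / R)) := by
    refine tendsto_nhdsWithin_of_tendsto_nhds ?_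
    have : ContinuousAt (fun s : ℝ => 2 * Real.log B' / (R - s)) 0 :=
      continuousAt_const.div (continuousAt_const.sub continuousAt_id) (by simp; linarith)
    simpa using this.tendsto
  have hle : ‖deriv f 0 / f 0‖ ≤ 2 * Real.log B' / R := by
    refine ge_of_tendsto hlim ?_
    filter_upwards [Ioo_mem_nhdsGT hR] with s hs
    have hsub : closedBall (0 : ℂ) s ⊆ ball 0 R := closedBall_subset_ball hs.2
    rw [← (hder 0 (mem_ball_self hR)).deriv]
    have hd : DiffContOnCl ℂ h (ball (0 : ℂ) s) := by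
      refine DifferentiableOn.diffContOnCl ?_
      rw [closure_ball _ hs.1.ne']
      exact fun w hw => (hder w (hsub hw)).differentiableAt.differentiableWithinAt
    refine (norm_deriv_le_of_forall_mem_sphere_norm_le hs.1 hd
      (C := 2 * Real.log B' * s / (R - s)) fun w hw => ?_).trans (le_of_eq ?_)
    · have := hh w (hsub (sphere_subset_closedBall hw))
      rwa [mem_sphere_zero_iff_norm.1 hw] at this
    · have h1 := hs.1
      field_simp
  refine hle.trans ?_
  rw [hlog, mul_add, add_div]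
  have : 2 * δ / R ≤ η := by
    rw [div_le_iff₀ hR]
    nlinarith [min_le_left (η * R / 8) 1, mul_pos hη hR]
  linarith

/-- Removing one zero in the disc of radius `r / 3`. -/
theorem remove_zero (hU : IsOpen U) (hsub : closedBall (0 : ℂ) r ⊆ U) (hr : 0 < r)
    (hf : DifferentiableOn ℂ f U) (h0 : f 0 ≠ 0)
    (hb : ∀ z ∈ sphere (0 : ℂ) r, ‖f z‖ ≤ B * ‖f 0‖)
    {ρ : ℂ} (hρ : ρ ∈ closedBall (0 : ℂ) (r / 3)) (hfρ : f ρ = 0) :
    DifferentiableOn ℂ (dslope f ρ) U ∧ dslope f ρ 0 ≠ 0 ∧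
      (∀ z ∈ sphere (0 : ℂ) r, ‖dslope f ρ z‖ ≤ B / 2 * ‖dslope f ρ 0‖) ∧
      (∀ z, dslope f ρ z = 0 → z ≠ ρ → f z = 0) ∧
      deriv f 0 / f 0 = deriv (dslope f ρ) 0 / dslope f ρ 0 - 1 / ρ := by
  have hρr : ‖ρ‖ ≤ r / 3 := mem_closedBall_zero_iff.1 hρ
  have hρU : ρ ∈ U := hsub (mem_closedBall_zero_iff.2 (by linarith))
  have h0U : (0 : ℂ) ∈ U := hsub (mem_closedBall_self hr.le)
  set g := dslope f ρ
  have hg : DifferentiableOn ℂ g U := (differentiableOn_dslope (hU.mem_nhds hρU)).2 hf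
  have hmul : ∀ z, f z = (z - ρ) * g z := fun z => by
    have := sub_smul_dslope f ρ z
    rw [hfρ, sub_zero, smul_eq_mul] at this
    exact this.symm
  have hρ0 : ρ ≠ 0 := fun h => h0 (h ▸ hfρ)
  have hg0 : g 0 ≠ 0 := fun h => h0 (by rw [hmul, h, mul_zero])
  refine ⟨hg, hg0, fun z hz => ?_, fun z h1 _ => by rw [hmul, h1, mul_zero], ?_⟩
  · have h1 := hb z hz
    rw [hmul z, hmul 0, norm_mul, norm_mul, zero_sub, norm_neg] at h1
    have hz' : 2 * ‖ρ‖ ≤ ‖z - ρ‖ := by
      have := norm_sub_norm_le z ρ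
      rw [mem_sphere_zero_iff_norm.1 hz] at this
      linarith
    have hρp : 0 < ‖ρ‖ := norm_pos_iff.2 hρ0
    have h2 := (mul_le_mul_of_nonneg_right hz' (norm_nonneg (g z))).trans h1
    nlinarith
  · have hgd := ((hg 0 h0U).differentiableAt (hU.mem_nhds h0U)).hasDerivAt
    have hd : HasDerivAt f (1 * g 0 + (0 - ρ) * deriv g 0) 0 := by
      have := ((hasDerivAt_id' (0 : ℂ)).sub_const ρ).mul hgd
      exact this.congr_of_eventuallyEq (Eventually.of_forall hmul)
    rw [hd.deriv, hmul 0]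
    field_simp
    ring

/-- The bound `1 ≤ B`. -/
theorem one_le_bound (hsub : closedBall (0 : ℂ) r ⊆ U) (hr : 0 < r)
    (hf : DifferentiableOn ℂ f U) (h0 : f 0 ≠ 0)
    (hb : ∀ z ∈ sphere (0 : ℂ) r, ‖f z‖ ≤ B * ‖f 0‖) : 1 ≤ B := by
  have := norm_le_of_sphere hsub hr hf hb (mem_closedBall_self hr.le)
  exact le_of_mul_le_mul_right (by rwa [one_mul]) (norm_pos_iff.2 h0)

theorem re_one_div_neg {ρ : ℂ} (h : ρ.re < 0) : (1 / ρ).re ≤ 0 := by
  rw [one_div, inv_re]
  exact div_nonpos_of_nonpos_of_nonneg h.le (normSq_nonneg ρ)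

/-- Landau's lemma, with all zeros dropped. -/
theorem neg_re_logDeriv_le (hU : IsOpen U) (hsub : closedBall (0 : ℂ) r ⊆ U) (hr : 0 < r) :
    ∀ (N : ℕ) (f : ℂ → ℂ) (B : ℝ), B < 2 ^ N → DifferentiableOn ℂ f U → f 0 ≠ 0 →
      (∀ z ∈ sphere (0 : ℂ) r, ‖f z‖ ≤ B * ‖f 0‖) →
      (∀ z ∈ closedBall (0 : ℂ) (r / 3), f z = 0 → z.re < 0) →
      -(deriv f 0 / f 0).re ≤ 6 * Real.log B / r := by
  intro N
  induction N with
  | zero =>
    intro f B hB hf h0 hb _
    have := one_le_bound hsub hr hf h0 hb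
    rw [pow_zero] at hB
    linarith
  | succ N ih =>
    intro f B hB hf h0 hb hz
    have hB1 := one_le_bound hsub hr hf h0 hb
    by_cases hzero : ∃ ρ ∈ closedBall (0 : ℂ) (r / 3), f ρ = 0
    · obtain ⟨ρ, hρ, hfρ⟩ := hzero
      obtain ⟨hg, hg0, hgb, hgz, hd⟩ := remove_zero hU hsub hr hf h0 hb hρ hfρ
      have hB2 := one_le_bound hsub hr hg hg0 hgb
      have h := ih (dslope f ρ) (B / 2) (by rw [pow_succ] at hB; linarith) hg hg0 hgb
        fun z hz1 hz2 => by
          rcases eq_or_ne z ρ with rfl | hne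
          · exact hz z hρ hfρ
          · exact hz z hz1 (hgz z hz2 hne)
      have h1 := re_one_div_neg (hz ρ hρ hfρ)
      have h2 : 6 * Real.log (B / 2) / r ≤ 6 * Real.log B / r := by
        gcongr
        linarith
      rw [hd, sub_re]
      linarith
    · push Not at hzero
      have hball : ball (0 : ℂ) (r / 3) ⊆ closedBall 0 r :=
        ball_subset_closedBall.trans (closedBall_subset_closedBall (by linarith))
      have h := norm_logDeriv_le (f := f) (R := r / 3) (by linarith)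
        (hf.mono (hball.trans hsub)) (fun z hz' => hzero z (ball_subset_closedBall hz')) hB1
        fun z hz' => norm_le_of_sphere hsub hr hf hb (hball hz')
      have h2 := (neg_le_abs _).trans ((abs_re_le_norm (deriv f 0 / f 0)).trans h)
      refine h2.trans (le_of_eq ?_)
      field_simp
      ring

/-- **Landau's lemma.** -/
theorem landau (hU : IsOpen U) (hsub : closedBall (0 : ℂ) r ⊆ U) (hr : 0 < r)
    (hf : DifferentiableOn ℂ f U) (h0 : f 0 ≠ 0)
    (hb : ∀ z ∈ sphere (0 : ℂ) r, ‖f z‖ ≤ B * ‖f 0‖)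
    (hz : ∀ z ∈ closedBall (0 : ℂ) (r / 3), f z = 0 → z.re < 0) :
    -(deriv f 0 / f 0).re ≤ 6 * Real.log B / r := by
  obtain ⟨N, hN⟩ := pow_unbounded_of_one_lt B one_lt_two
  exact neg_re_logDeriv_le hU hsub hr N f B hN hf h0 hb hz

/-- Landau's lemma, keeping one zero. -/
theorem landau_zero (hU : IsOpen U) (hsub : closedBall (0 : ℂ) r ⊆ U) (hr : 0 < r)
    (hf : DifferentiableOn ℂ f U) (h0 : f 0 ≠ 0)
    (hb : ∀ z ∈ sphere (0 : ℂ) r, ‖f z‖ ≤ B * ‖f 0‖)
    (hz : ∀ z ∈ closedBall (0 : ℂ) (r / 3), f z = 0 → z.re < 0)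
    {ρ : ℂ} (hρ : ρ ∈ closedBall (0 : ℂ) (r / 3)) (hfρ : f ρ = 0) :
    -(deriv f 0 / f 0).re ≤ 6 * Real.log B / r + (1 / ρ).re := by
  obtain ⟨hg, hg0, hgb, hgz, hd⟩ := remove_zero hU hsub hr hf h0 hb hρ hfρ
  have hB2 := one_le_bound hsub hr hg hg0 hgb
  have h := landau hU hsub hr hg hg0 hgb fun z h1 h2 => by
    rcases eq_or_ne z ρ with rfl | hne
    · exact hz z hρ hfρ
    · exact hz z h1 (hgz z h2 hne)
  have h2 : 6 * Real.log (B / 2) / r ≤ 6 * Real.log B / r := by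
    gcongr
    linarith
  rw [hd, sub_re]
  linarith

end FA.DLVP

end
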