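import Fermat.Agent.ZeroFreeRegion.LowerBound
import Mathlib.NumberTheory.LSeries.Dirichlet

/-!
# Dirichlet series with nonnegative coefficients at the line `re s = σ > 1`

`|ζ(σ + it)|` and `|ζ'/ζ (σ + it)|` are dominated by their values at `σ`, and
`3 P(σ) + 4 re P(σ + it) + re P(σ + 2it) ≥ 0` for `P = -ζ'/ζ`.
-/

set_option autoImplicit false

noncomputable section

namespace FA.DLVP

open Complex LSeries
open scoped ArithmeticFunction.vonMangoldt

variable {g : ℕ → ℝ} {s : ℂ} {σ : ℝ}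

theorem norm_term_line (g : ℕ → ℝ) (hs : s.re = σ) (n : ℕ) :
    ‖term (fun k => (g k : ℂ)) s n‖ = ‖term (fun k => (g k : ℂ)) (σ : ℂ) n‖ := by
  rw [norm_term_eq, norm_term_eq, hs, ofReal_re]

theorem term_re (hg : ∀ n, 0 ≤ g n) (s : ℂ) (n : ℕ) :
    (term (fun k => (g k : ℂ)) s n).re =
      ‖term (fun k => (g k : ℂ)) s n‖ * Real.cos (s.im * Real.log n) := by
  rcases eq_or_ne n 0 with rfl | hn
  · simp
  have hn0 : (0 : ℝ) < n := Nat.cast_pos.2 (Nat.pos_of_ne_zero hn)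
  rw [norm_term_eq, if_neg hn, term_of_ne_zero hn, cpow_def_of_ne_zero (Nat.cast_ne_zero.2 hn),
    ← natCast_log, div_eq_mul_inv, ← Complex.exp_neg, re_ofReal_mul, exp_re, Complex.norm_real,
    Real.norm_eq_abs, abs_of_nonneg (hg n), Real.rpow_def_of_pos hn0, div_eq_mul_inv,
    ← Real.exp_neg, neg_re, neg_im, re_ofReal_mul, im_ofReal_mul, Real.cos_neg,
    mul_comm s.im, mul_assoc]

theorem hasSum_re_line (hg : ∀ n, 0 ≤ g n) (hs : s.re = σ)
    (hS : LSeriesSummable (fun k => (g k : ℂ)) (σ : ℂ)) :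
    HasSum (fun n => ‖term (fun k => (g k : ℂ)) (σ : ℂ) n‖ * Real.cos (s.im * Real.log n))
      (LSeries (fun k => (g k : ℂ)) s).re := by
  have hS' : Summable fun n => term (fun k => (g k : ℂ)) s n := by
    refine Summable.of_norm ?_
    exact hS.norm.congr fun n => (norm_term_line g hs n).symm
  refine (Complex.hasSum_re hS'.hasSum).congr_fun fun n => ?_
  rw [term_re hg, norm_term_line g hs]

/-- Domination by the value on the real line. -/
theorem norm_LSeries_le_re (hg : ∀ n, 0 ≤ g n) (hs : s.re = σ)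
    (hS : LSeriesSummable (fun k => (g k : ℂ)) (σ : ℂ)) :
    ‖LSeries (fun k => (g k : ℂ)) s‖ ≤ (LSeries (fun k => (g k : ℂ)) (σ : ℂ)).re := by
  have h0 := hasSum_re_line hg (ofReal_re σ) hS
  simp only [ofReal_im, zero_mul, Real.cos_zero, mul_one] at h0
  rw [← h0.tsum_eq]
  have hS' : Summable fun n => ‖term (fun k => (g k : ℂ)) s n‖ :=
    hS.norm.congr fun n => (norm_term_line g hs n).symm
  exact (norm_tsum_le_tsum_norm hS').trans (le_of_eq (tsum_congr (norm_term_line g hs)))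

/-- The inequality `3 + 4 cos θ + cos 2θ ≥ 0` for a series with nonnegative coefficients. -/
theorem three_four_one (hg : ∀ n, 0 ≤ g n) (t : ℝ)
    (hS : LSeriesSummable (fun k => (g k : ℂ)) (σ : ℂ)) :
    0 ≤ 3 * (LSeries (fun k => (g k : ℂ)) (σ : ℂ)).re +
      4 * (LSeries (fun k => (g k : ℂ)) ((σ : ℂ) + t * I)).re +
      (LSeries (fun k => (g k : ℂ)) ((σ : ℂ) + ((2 * t : ℝ) : ℂ) * I)).re := by
  have h0 := hasSum_re_line hg (ofReal_re σ) hS
  have h1 := hasSum_re_line hg (s := (σ : ℂ) + t * I) (by simp) hS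
  have h2 := hasSum_re_line hg (s := (σ : ℂ) + ((2 * t : ℝ) : ℂ) * I) (by simp) hS
  refine ((h0.mul_left 3).add (h1.mul_left 4)).add h2 |>.nonneg fun n => ?_
  simp only [ofReal_im, zero_mul, Real.cos_zero, mul_one, add_im, mul_im, ofReal_re, I_im, I_re,
    mul_zero, zero_add, add_zero]
  rw [mul_assoc 2 t, Real.cos_two_mul]
  nlinarith [mul_nonneg (norm_nonneg (term (fun k => (g k : ℂ)) (σ : ℂ) n))
    (sq_nonneg (1 + Real.cos (t * Real.log n)))]

/-- `|ζ (σ + it)| ≤ |ζ σ|`. -/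
theorem norm_zeta_le_real (hσ : 1 < σ) (hs : s.re = σ) :
    ‖riemannZeta s‖ ≤ ‖riemannZeta (σ : ℂ)‖ := by
  have he : (fun _ : ℕ => ((1 : ℝ) : ℂ)) = (1 : ℕ → ℂ) := by
    funext n
    simp
  have h := norm_LSeries_le_re (g := fun _ => 1) (fun _ => zero_le_one) hs
    (by rw [he]; exact LSeriesSummable_one_iff.2 (by simpa using hσ))
  rw [he, LSeries_one_eq_riemannZeta (by rw [hs]; exact hσ),
    LSeries_one_eq_riemannZeta (by simpa using hσ)] at h
  exact h.trans (re_le_norm _)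

/-- `-ζ'/ζ` as a Dirichlet series. -/
theorem vonMangoldt_series (hs : 1 < s.re) :
    LSeries (fun n => ((Λ n : ℝ) : ℂ)) s = -(deriv riemannZeta s / riemannZeta s) := by
  rw [← neg_div]
  exact ArithmeticFunction.LSeries_vonMangoldt_eq_deriv_riemannZeta_div hs

/-- The `3-4-1` inequality for `-ζ'/ζ`. -/
theorem three_four_one_logDeriv (hσ : 1 < σ) (t : ℝ) :
    0 ≤ 3 * (LSeries (fun n => ((Λ n : ℝ) : ℂ)) (σ : ℂ)).re +
      4 * (LSeries (fun n => ((Λ n : ℝ) : ℂ)) ((σ : ℂ) + t * I)).re +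
      (LSeries (fun n => ((Λ n : ℝ) : ℂ)) ((σ : ℂ) + ((2 * t : ℝ) : ℂ) * I)).re :=
  three_four_one (fun _ => ArithmeticFunction.vonMangoldt_nonneg) t
    (ArithmeticFunction.LSeriesSummable_vonMangoldt (by simpa using hσ))

/-- `|ζ'/ζ (σ + it)| ≤ -ζ'/ζ (σ)`. -/
theorem norm_logDeriv_zeta_le_real (hσ : 1 < σ) (hs : s.re = σ) :
    ‖deriv riemannZeta s / riemannZeta s‖ ≤
      (LSeries (fun n => ((Λ n : ℝ) : ℂ)) (σ : ℂ)).re := by
  have h := norm_LSeries_le_re (g := fun n => Λ n) (fun _ => ArithmeticFunction.vonMangoldt_nonneg)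
    hs (ArithmeticFunction.LSeriesSummable_vonMangoldt (by simpa using hσ))
  rwa [vonMangoldt_series (by rw [hs]; exact hσ), norm_neg] at h

end FA.DLVP

end
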