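import Fermat.Agent.DelaValleePoussin.Landau
import Fermat.Agent.DelaValleePoussin.Positivity

/-!
# The classical zero-free region

`ζ (s) ≠ 0` for `re s ≥ 1 - c / ell (im s)`, by Landau's lemma and the `3-4-1` inequality, and
`ζ'/ζ = O (ell (im s) ^ 2)` in a narrower region of the same shape.
-/

set_option autoImplicit false

noncomputable section

namespace FA.DLVP

open Complex Metric FA.ZeroFree
open scoped ArithmeticFunction.vonMangoldt

/-- A crude bound in the strip `1/4 ≤ re s ≤ 3`. -/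
theorem norm_zeta_crude {s : ℂ} (h1 : 1 / 4 ≤ s.re) (h2 : s.re ≤ 3) (ht : 1 ≤ |s.im|) :
    ‖riemannZeta s‖ ≤ 5 * (|s.im| + 3) := by
  have hs1 : s ≠ 1 := fun h => by rw [h] at ht; norm_num at ht
  have e : riemannZeta s = s / (s - 1) - s * CycloGrowth.fracInt s := by
    have := sub_ne_zero.2 hs1
    rw [riemannZeta_eq_inv_sub_mul hs1, CycloGrowth.riemannZeta₁_eq (by linarith)]
    field_simp
  have hn : ‖s‖ ≤ |s.im| + 3 := by
    refine (norm_le_abs_re_add_abs_im s).trans ?_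
    rw [abs_of_nonneg (show 0 ≤ s.re by linarith)]
    linarith
  have hi : ‖CycloGrowth.fracInt s‖ ≤ 4 := by
    refine (CycloGrowth.norm_fracInt_le (by linarith)).trans ?_
    rw [div_le_iff₀ (by linarith)]
    linarith
  have hd : ‖s / (s - 1)‖ ≤ |s.im| + 3 := by
    rw [norm_div]
    refine (div_le_self (norm_nonneg _) ?_).trans hn
    exact ht.trans (by simpa using abs_im_le_norm (s - 1))
  rw [e]
  refine (norm_sub_le _ _).trans ?_
  rw [norm_mul]
  nlinarith [mul_le_mul hn hi (norm_nonneg _) (by positivity)]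

/-- The lower bound at `1 + δ + it`. -/
theorem zeta_lower {δ : ℝ} (hδ : 0 < δ) (hδ1 : δ ≤ 1) (t : ℝ) :
    δ / 4 ≤ ‖riemannZeta (((1 + δ : ℝ) : ℂ) + t * I)‖ := by
  have h := norm_zeta_product_ge_one hδ t
  have e1 : (1 + δ + I * t : ℂ) = ((1 + δ : ℝ) : ℂ) + t * I := by push_cast; ring
  rw [e1] at h
  have h1 := norm_zeta_real_le hδ hδ1
  have h2 : ‖riemannZeta (1 + δ + 2 * I * t)‖ ≤ 4 / δ := by
    refine (norm_zeta_le_real (σ := 1 + δ) (by linarith) (by simp)).trans ?_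
    push_cast
    exact h1
  have h3 : (1 : ℝ) ≤ (4 / δ) ^ 3 * ‖riemannZeta (((1 + δ : ℝ) : ℂ) + t * I)‖ ^ 4 * (4 / δ) :=
    h.trans (mul_le_mul (mul_le_mul_of_nonneg_right
      (pow_le_pow_left₀ (norm_nonneg _) h1 3) (by positivity)) h2 (norm_nonneg _) (by positivity))
  refine le_of_pow_le_pow_left₀ four_ne_zero (norm_nonneg _) ?_
  have h4 := mul_le_mul_of_nonneg_left h3 (show (0 : ℝ) ≤ (δ / 4) ^ 4 by positivity)
  rw [mul_one] at h4
  refine h4.trans (le_of_eq ?_)
  field_simp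

/-- `-ζ'/ζ (1 + δ) ≤ 1/δ + C`. -/
theorem exists_real_bound : ∃ C, 0 ≤ C ∧ ∀ δ : ℝ, 0 < δ → δ ≤ 1 →
    (LSeries (fun n => ((Λ n : ℝ) : ℂ)) ((1 + δ : ℝ) : ℂ)).re ≤ 1 / δ + C := by
  obtain ⟨M, hM⟩ := (isCompact_Icc (a := (1 : ℝ)) (b := 2)).exists_bound_of_continuousOn
    (f := fun x : ℝ => errLog (x : ℂ)) fun x hx =>
      (ContinuousAt.comp' (g := errLog) (differentiableAt_errLog
        (riemannZeta₁_ne_zero_of_one_le (by simpa using hx.1))).continuousAt
          continuous_ofReal.continuousAt).continuousWithinAt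
  refine ⟨|M| + 3, by positivity, fun δ hδ hδ1 => ?_⟩
  have hs : 1 < ((1 + δ : ℝ) : ℂ).re := by simpa using hδ
  have hne : ((1 + δ : ℝ) : ℂ) ≠ 1 := fun h => by simp [h] at hs
  rw [vonMangoldt_series hs]
  have he := errLog_eq hne (riemannZeta_ne_zero_of_one_lt_re hs)
  rw [neg_div] at he
  rw [show -(deriv riemannZeta ((1 + δ : ℝ) : ℂ) / riemannZeta ((1 + δ : ℝ) : ℂ)) =
    errLog ((1 + δ : ℝ) : ℂ) + riemannZeta ((1 + δ : ℝ) : ℂ) by rw [he]; ring, add_re]
  have hz : ‖riemannZeta ((1 + δ : ℝ) : ℂ)‖ ≤ 1 / δ + 3 := by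
    have e : riemannZeta ((1 + δ : ℝ) : ℂ) = ((1 + δ : ℝ) : ℂ) / (((1 + δ : ℝ) : ℂ) - 1) -
        ((1 + δ : ℝ) : ℂ) * CycloGrowth.fracInt ((1 + δ : ℝ) : ℂ) := by
      have := sub_ne_zero.2 hne
      rw [riemannZeta_eq_inv_sub_mul hne, CycloGrowth.riemannZeta₁_eq (by linarith)]
      field_simp
    rw [e]
    refine (norm_sub_le _ _).trans ?_
    rw [norm_div, norm_mul, Complex.norm_real, Real.norm_eq_abs,
      abs_of_pos (by linarith : (0 : ℝ) < 1 + δ),
      show ((1 + δ : ℝ) : ℂ) - 1 = (δ : ℂ) by push_cast; ring, Complex.norm_real,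
      Real.norm_eq_abs, abs_of_pos hδ, add_div, div_self hδ.ne']
    have h1 := CycloGrowth.norm_fracInt_le (s := ((1 + δ : ℝ) : ℂ)) (by linarith)
    rw [ofReal_re] at h1
    have h2 := mul_le_mul_of_nonneg_left h1 (by linarith : (0 : ℝ) ≤ 1 + δ)
    rw [mul_one_div_cancel (by linarith)] at h2
    linarith
  have h3 := (re_le_norm _).trans ((hM (1 + δ) ⟨by linarith, by linarith⟩).trans (le_abs_self M))
  linarith [(re_le_norm (riemannZeta ((1 + δ : ℝ) : ℂ))).trans hz]

/-- Landau's lemma for `ζ` at `1 + δ + it`. -/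
theorem landau_zeta {δ t : ℝ} (hδ : 0 < δ) (hδ1 : δ ≤ 1 / 4) (ht : 2 ≤ |t|) :
    (LSeries (fun n => ((Λ n : ℝ) : ℂ)) (((1 + δ : ℝ) : ℂ) + t * I)).re ≤
        12 * Real.log (20 * (|t| + 4) / δ) ∧
      ∀ β : ℝ, riemannZeta ((β : ℂ) + t * I) = 0 → 1 + δ - β ≤ 1 / 6 →
        (LSeries (fun n => ((Λ n : ℝ) : ℂ)) (((1 + δ : ℝ) : ℂ) + t * I)).re ≤
          12 * Real.log (20 * (|t| + 4) / δ) - 1 / (1 + δ - β) := by
  obtain ⟨s₀, hs₀⟩ : ∃ s₀ : ℂ, s₀ = ((1 + δ : ℝ) : ℂ) + t * I := ⟨_, rfl⟩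
  have hre : s₀.re = 1 + δ := by simp [hs₀]
  have him : s₀.im = t := by simp [hs₀]
  obtain ⟨f, hf⟩ : ∃ f : ℂ → ℂ, f = fun z => riemannZeta (s₀ + z) := ⟨_, rfl⟩
  have hU : DifferentiableOn ℂ f (ball 0 1) := fun z hz => by
    rw [mem_ball_zero_iff] at hz
    have hne : s₀ + z ≠ 1 := fun h => by
      have h1 := congrArg Complex.im h
      simp only [add_im, him, one_im] at h1
      have h2 := abs_im_le_norm z
      rw [show z.im = -t by linarith, abs_neg] at h2
      linarith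
    rw [hf]
    exact ((differentiableAt_riemannZeta hne).comp z
      (differentiableAt_id.const_add s₀)).differentiableWithinAt
  have hsub : closedBall (0 : ℂ) (1 / 2) ⊆ ball 0 1 := closedBall_subset_ball (by norm_num)
  have hlow : δ / 4 ≤ ‖f 0‖ := by
    simpa [hf, hs₀] using zeta_lower hδ (by linarith) t
  have h0 : f 0 ≠ 0 := norm_pos_iff.1 (lt_of_lt_of_le (by positivity) hlow)
  have hb : ∀ z ∈ sphere (0 : ℂ) (1 / 2), ‖f z‖ ≤ 20 * (|t| + 4) / δ * ‖f 0‖ := by
    intro z hz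
    rw [mem_sphere_zero_iff_norm] at hz
    have h1 := abs_le.1 ((abs_re_le_norm z).trans hz.le)
    have h2 := (abs_im_le_norm z).trans hz.le
    have h3 := abs_sub_abs_le_abs_sub t (-z.im)
    rw [abs_neg, sub_neg_eq_add] at h3
    rw [hf]
    refine (norm_zeta_crude ?_ ?_ ?_).trans ?_
    · rw [add_re, hre]; linarith
    · rw [add_re, hre]; linarith
    · rw [add_im, him]; linarith
    · rw [add_im, him]
      calc 5 * (|t + z.im| + 3) ≤ 20 * (|t| + 4) / δ * (δ / 4) := by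
            rw [show 20 * (|t| + 4) / δ * (δ / 4) = 5 * (|t| + 4) by field_simp; ring]
            linarith [abs_add_le t z.im]
        _ ≤ _ := mul_le_mul_of_nonneg_left (by simpa [hf] using hlow) (by positivity)
  have hz : ∀ z ∈ closedBall (0 : ℂ) (1 / 2 / 3), f z = 0 → z.re < 0 := by
    intro z _ h
    rw [hf] at h
    by_contra hc
    exact riemannZeta_ne_zero_of_one_le_re (by rw [add_re, hre]; linarith) h
  have hP : -(deriv f 0 / f 0).re =
      (LSeries (fun n => ((Λ n : ℝ) : ℂ)) (((1 + δ : ℝ) : ℂ) + t * I)).re := by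
    rw [← hs₀, vonMangoldt_series (by rw [hre]; linarith), neg_re, hf, deriv_comp_const_add]
    simp only [add_zero]
  have e12 : ∀ x : ℝ, 6 * x / (1 / 2) = 12 * x := fun x => by ring
  refine ⟨?_, fun β hβ hβ1 => ?_⟩
  · have := landau isOpen_ball hsub (by norm_num) hU h0 hb hz
    rwa [hP, e12] at this
  · have hβ' : β < 1 := by
      by_contra hc
      exact riemannZeta_ne_zero_of_one_le_re (by simpa using not_lt.1 hc) hβ
    obtain ⟨ρ, hρ⟩ : ∃ ρ : ℂ, ρ = ((-(1 + δ - β) : ℝ) : ℂ) := ⟨_, rfl⟩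
    have hρm : ρ ∈ closedBall (0 : ℂ) (1 / 2 / 3) := by
      rw [mem_closedBall_zero_iff, hρ, Complex.norm_real, Real.norm_eq_abs, abs_neg,
        abs_of_pos (by linarith : 0 < 1 + δ - β)]
      linarith
    have hρ0 : f ρ = 0 := by
      simp only [hf, hs₀, hρ]
      rw [← hβ]
      congr 1
      push_cast
      ring
    have := landau_zero isOpen_ball hsub (by norm_num) hU h0 hb hz hρm hρ0
    rw [hP, e12, hρ, ← ofReal_one, ← ofReal_div, ofReal_re, div_neg] at this
    linarith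

/-- The height enters through `ell`. -/
theorem log_bound {A L u δ : ℝ} (hA : 1 ≤ A) (hL : 4 ≤ L) (hδ : δ = 1 / (A * L))
    (hu : ell u ≤ 2 * L) :
    Real.log (20 * (|u| + 4) / δ) ≤ L * (4 + Real.log A / 4) := by
  have hu4 : 0 < |u| + 4 := by positivity
  rw [hδ, div_div_eq_mul_div, div_one, Real.log_mul (by positivity) (by positivity),
    Real.log_mul (by norm_num) hu4.ne', Real.log_mul (by linarith) (by linarith)]
  have h1 : Real.log 20 ≤ 4 := by
    rw [Real.log_le_iff_le_exp (by norm_num)]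
    calc (20 : ℝ) ≤ (2.7 : ℝ) ^ 4 := by norm_num
      _ ≤ Real.exp 1 ^ 4 :=
        pow_le_pow_left₀ (by norm_num) (by linarith [Real.exp_one_gt_d9]) 4
      _ = Real.exp 4 := by rw [← Real.exp_nat_mul]; norm_num
  have h2 : Real.log (|u| + 4) ≤ ell u := Real.log_le_log hu4 (by linarith)
  have h3 : Real.log L ≤ L := Real.log_le_self (by linarith)
  have h4 : Real.log A ≤ L * (Real.log A / 4) := by
    nlinarith [Real.log_nonneg hA]
  linarith

/-- The heart of de la Vallée Poussin's argument. -/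
theorem exists_high_region : ∃ c, 0 < c ∧ c ≤ 1 ∧ ∀ β t : ℝ, 2 ≤ |t| →
    riemannZeta ((β : ℂ) + t * I) = 0 → β ≤ 1 - c / ell t := by
  obtain ⟨C, hC, hreal⟩ := exists_real_bound
  obtain ⟨A, hA⟩ : ∃ A, A = 10 ^ 4 + 16 * C := ⟨_, rfl⟩
  have hA4 : (10000 : ℝ) ≤ A := by rw [hA]; linarith
  refine ⟨1 / (7 * A), by positivity, by rw [div_le_one (by positivity)]; linarith,
    fun β t ht hz => ?_⟩
  obtain ⟨L, hL⟩ : ∃ L, L = ell t := ⟨_, rfl⟩
  rw [← hL]
  have hL4 : 4 ≤ L := hL ▸ four_le_ell t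
  obtain ⟨δ, hδ⟩ : ∃ δ, δ = 1 / (A * L) := ⟨_, rfl⟩
  have hδ0 : 0 < δ := by rw [hδ]; positivity
  have hAL : 40000 ≤ A * L := by nlinarith
  have hδ1 : δ ≤ 1 / 40000 := hδ ▸ one_div_le_one_div_of_le (by norm_num) hAL
  have hc : 1 / (7 * A) / L ≤ 1 / 280000 := by
    rw [div_div, mul_assoc]
    exact one_div_le_one_div_of_le (by norm_num) (by linarith)
  rcases lt_or_ge (1 / 6) (1 + δ - β) with h | h
  · linarith
  have hβ : β < 1 := by
    by_contra hb
    exact riemannZeta_ne_zero_of_one_le_re (by simpa using not_lt.1 hb) hz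
  have hd : 0 < 1 + δ - β := by linarith
  have h341 := three_four_one_logDeriv (σ := 1 + δ) (by linarith) t
  have h0 := hreal δ hδ0 (by linarith)
  have h1 := (landau_zeta hδ0 (by linarith) ht).2 β hz h
  have h2 := (landau_zeta hδ0 (by linarith) (t := 2 * t)
    (by rw [abs_mul, abs_two]; linarith)).1
  have l1 := log_bound (u := t) (by linarith : 1 ≤ A) hL4 hδ (by linarith)
  have l2 := log_bound (u := 2 * t) (by linarith : 1 ≤ A) hL4 hδ (hL ▸ ell_two_mul t)
  have hlogA : Real.log A ≤ A / 50 := by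
    have hs : 100 ≤ √A := Real.le_sqrt_of_sq_le (by linarith)
    have h5 : Real.log √A ≤ √A := Real.log_le_self (Real.sqrt_nonneg _)
    rw [Real.log_sqrt (by linarith)] at h5
    nlinarith [Real.mul_self_sqrt (by linarith : 0 ≤ A), Real.sqrt_nonneg A]
  have hδinv : 1 / δ = A * L := by rw [hδ, one_div_one_div]
  have hCL : 3 * C ≤ L * (3 * C / 4) := by nlinarith
  have hmain : 4 * (1 / (1 + δ - β)) ≤ 7 / 2 * (A * L) := by
    have : L * (240 + 15 * Real.log A + 3 * C / 4) ≤ L * (A / 2) := by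
      refine mul_le_mul_of_nonneg_left ?_ (by linarith)
      linarith
    linarith
  rw [mul_one_div, div_le_iff₀ hd] at hmain
  have hfin : 1 / (7 * A) / L = δ / 7 := by
    rw [hδ]
    field_simp
  rw [hfin]
  have hkey : 8 / 7 ≤ A * L * (1 + δ - β) := by linarith
  have hδAL : δ * (A * L) = 1 := by rw [hδ]; field_simp
  nlinarith

/-- **The zero-free region.** -/
theorem exists_zero_free_ell : ∃ c, 0 < c ∧ c ≤ 1 ∧ ∀ s : ℂ,
    1 - c / ell s.im ≤ s.re → riemannZeta₁ s ≠ 0 := by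
  obtain ⟨c, hc, hc1, h⟩ := exists_high_region
  obtain ⟨η, hη, -, hlow⟩ := exists_low_region
  refine ⟨min (c / 2) η, lt_min (by positivity) hη, (min_le_left _ _).trans (by linarith),
    fun s hs => ?_⟩
  rcases le_or_gt 1 s.re with h1 | h1
  · exact riemannZeta₁_ne_zero_of_one_le h1
  have hl := four_le_ell s.im
  rcases le_or_gt |s.im| 2 with ht | ht
  · refine hlow s ht ?_ (by linarith)
    have : min (c / 2) η / ell s.im ≤ η :=
      (div_le_self (lt_min (by positivity) hη).le (by linarith)).trans (min_le_right _ _)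
    linarith
  · intro h0
    have hs1 : s ≠ 1 := fun hh => by simp [hh] at h1
    have hz : riemannZeta s = 0 := by rw [riemannZeta_eq_inv_sub_mul hs1, h0, mul_zero]
    have hb := h s.re s.im ht.le (by rwa [Complex.re_add_im])
    have h2 : min (c / 2) η / ell s.im ≤ c / 2 / ell s.im :=
      div_le_div_of_nonneg_right (min_le_left _ _) (by linarith)
    have h3 : c / ell s.im = c / 2 / ell s.im + c / 2 / ell s.im := by ring
    have h4 : 0 < c / 2 / ell s.im := by positivity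
    linarith

/-- The bound for `ζ'/ζ` in a narrower region, at heights at least `3`. -/
theorem exists_logDeriv_high {c : ℝ} (hc : 0 < c) (hc1 : c ≤ 1)
    (h : ∀ s : ℂ, 1 - c / ell s.im ≤ s.re → riemannZeta₁ s ≠ 0) :
    ∃ K, 0 ≤ K ∧ ∀ s : ℂ, 3 ≤ |s.im| → 1 - c / 5 / ell s.im ≤ s.re → s.re ≤ 2 →
      ‖deriv riemannZeta s / riemannZeta s‖ ≤ K * ell s.im ^ 2 := by
  obtain ⟨C, hC, hreal⟩ := exists_real_bound
  obtain ⟨U, hUdef⟩ : ∃ U, U = upperConst := ⟨_, rfl⟩
  have hU : 1 ≤ U := hUdef ▸ one_le_upperConst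
  obtain ⟨W, hW⟩ : ∃ W, W = Real.log (25 * U / c) := ⟨_, rfl⟩
  have hW0 : 0 ≤ W := by
    rw [hW]
    refine Real.log_nonneg ?_
    rw [le_div_iff₀ hc]
    linarith
  refine ⟨(30 * W + 65) / c + C, by positivity, fun s ht hs hs2 => ?_⟩
  obtain ⟨L, hL⟩ : ∃ L, L = ell s.im := ⟨_, rfl⟩
  rw [← hL] at hs ⊢
  have hL4 : 4 ≤ L := hL ▸ four_le_ell _
  have hL2 : L ≤ L ^ 2 := le_self_pow₀ (by linarith) (by norm_num)
  obtain ⟨e, he⟩ : ∃ e, e = c / 5 / L := ⟨_, rfl⟩
  rw [← he] at hs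
  have he0 : 0 < e := by rw [he]; positivity
  have he1 : e ≤ 1 / 20 := by
    rw [he, div_le_iff₀ (by linarith)]
    linarith
  have heinv : 1 / e = 5 * L / c := by rw [he]; field_simp
  rcases le_or_gt (1 + e) s.re with hσ | hσ
  · refine (norm_logDeriv_zeta_le_real (σ := s.re) (by linarith) rfl).trans ?_
    have h1 := hreal (s.re - 1) (by linarith) (by linarith)
    rw [add_sub_cancel] at h1
    refine h1.trans ?_
    have h2 : 1 / (s.re - 1) ≤ 5 * L / c :=
      heinv ▸ one_div_le_one_div_of_le he0 (by linarith)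
    have h3 : 5 * L / c ≤ (30 * W + 65) / c * L ^ 2 := by
      rw [div_mul_eq_mul_div]
      gcongr
      nlinarith
    have h4 : C ≤ C * L ^ 2 := le_mul_of_one_le_right hC (by nlinarith)
    linarith
  obtain ⟨s₀, hs₀⟩ : ∃ s₀ : ℂ, s₀ = ((1 + e : ℝ) : ℂ) + s.im * I := ⟨_, rfl⟩
  have hre : s₀.re = 1 + e := by simp [hs₀]
  have him : s₀.im = s.im := by simp [hs₀]
  obtain ⟨f, hf⟩ : ∃ f : ℂ → ℂ, f = fun z => riemannZeta (s₀ + z) := ⟨_, rfl⟩
  have hball : ∀ z ∈ ball (0 : ℂ) (4 * e), s₀ + z ≠ 1 ∧ riemannZeta (s₀ + z) ≠ 0 ∧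
      ‖riemannZeta (s₀ + z)‖ ≤ U * (5 / 4 * L) := by
    intro z hz
    rw [mem_ball_zero_iff] at hz
    have h1 := abs_le.1 ((abs_re_le_norm z).trans hz.le)
    have h2 : |(s₀ + z).im - s.im| ≤ 1 := by
      rw [add_im, him, add_sub_cancel_left]
      linarith [abs_im_le_norm z]
    have h3 : 1 ≤ |(s₀ + z).im| := by
      have := abs_sub_abs_le_abs_sub s.im (s₀ + z).im
      rw [abs_sub_comm] at this
      linarith
    have hell : ell (s₀ + z).im ≤ 5 / 4 * L := hL ▸ ell_near h2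
    have hpos := ell_pos (s₀ + z).im
    have hreg : 1 - c / ell (s₀ + z).im ≤ (s₀ + z).re := by
      rw [add_re, hre]
      have : 3 * e ≤ c / ell (s₀ + z).im := by
        rw [le_div_iff₀ hpos]
        calc 3 * e * ell (s₀ + z).im ≤ 3 * e * (5 / 4 * L) := by gcongr
          _ = 3 / 4 * c := by rw [he]; field_simp
          _ ≤ c := by linarith
      linarith
    have hne : s₀ + z ≠ 1 := fun hh => by
      rw [hh] at h3
      norm_num at h3
    refine ⟨hne, ?_, ?_⟩
    · rw [riemannZeta_eq_inv_sub_mul hne]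
      exact mul_ne_zero (inv_ne_zero (sub_ne_zero.2 hne)) (h _ hreg)
    · refine (norm_riemannZeta_le h3 ?_).trans ?_
      · have : c / ell (s₀ + z).im ≤ 2 / ell (s₀ + z).im := by gcongr; linarith
        linarith
      · rw [hUdef, upperConst]
        exact mul_le_mul_of_nonneg_left hell (by positivity)
  have hd : DifferentiableOn ℂ f (ball 0 (4 * e)) := fun z hz => by
    rw [hf]
    exact ((differentiableAt_riemannZeta (hball z hz).1).comp z
      (differentiableAt_id.const_add s₀)).differentiableWithinAt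
  have hlow : e / 4 ≤ ‖f 0‖ := by
    simpa [hf, hs₀] using zeta_lower he0 (by linarith) s.im
  obtain ⟨B, hB⟩ : ∃ B, B = 25 * U / c * L ^ 2 := ⟨_, rfl⟩
  have hB1 : 1 < B := by
    rw [hB]
    have : 1 ≤ 25 * U / c := by
      rw [le_div_iff₀ hc]
      linarith
    nlinarith
  have hb : ∀ z ∈ ball (0 : ℂ) (4 * e), ‖f z‖ ≤ B * ‖f 0‖ := fun z hz => by
    rw [hf]
    refine ((hball z hz).2.2).trans ?_
    calc U * (5 / 4 * L) = B * (e / 4) := by rw [hB, he]; field_simp; ring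
      _ ≤ _ := mul_le_mul_of_nonneg_left (by simpa [hf] using hlow) (by linarith)
  obtain ⟨g, hg, hgb⟩ := norm_log_le (by linarith) hd
    (fun z hz => by rw [hf]; exact (hball z hz).2.1) hB1 hb
  obtain ⟨z₁, hz₁⟩ : ∃ z₁ : ℂ, z₁ = ((s.re - 1 - e : ℝ) : ℂ) := ⟨_, rfl⟩
  have hn1 : ‖z₁‖ ≤ 2 * e := by
    rw [hz₁, Complex.norm_real, Real.norm_eq_abs, abs_le]
    constructor <;> linarith
  have hsub : closedBall z₁ e ⊆ ball (0 : ℂ) (4 * e) := fun w hw => by
    rw [mem_closedBall, dist_eq_norm] at hw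
    rw [mem_ball_zero_iff]
    linarith [norm_le_norm_add_norm_sub' w z₁]
  have hz1m : z₁ ∈ ball (0 : ℂ) (4 * e) := hsub (mem_closedBall_self he0.le)
  have hder : ‖deriv g z₁‖ ≤ 6 * Real.log B / e := by
    refine norm_deriv_le_of_forall_mem_sphere_norm_le he0 ?_ fun w hw => ?_
    · refine DifferentiableOn.diffContOnCl ?_
      rw [closure_ball _ he0.ne']
      exact fun w hw => (hg w (hsub hw)).differentiableAt.differentiableWithinAt
    · refine (hgb w (hsub (sphere_subset_closedBall hw))).trans ?_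
      rw [mem_sphere, dist_eq_norm] at hw
      have h1 : ‖w‖ ≤ 3 * e := by linarith [norm_le_norm_add_norm_sub' w z₁]
      rw [div_le_iff₀ (by linarith)]
      have h2 := Real.log_nonneg hB1.le
      nlinarith [norm_nonneg w]
  have hval : deriv g z₁ = deriv riemannZeta s / riemannZeta s := by
    rw [(hg z₁ hz1m).deriv, hf, deriv_comp_const_add]
    have : s₀ + z₁ = s := by
      apply Complex.ext
      · rw [add_re, hre, hz₁, ofReal_re]; ring
      · rw [add_im, him, hz₁, ofReal_im, add_zero]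
    simp only [this]
  rw [hval] at hder
  refine hder.trans ?_
  have hlogB : Real.log B ≤ W + 2 * L := by
    rw [hB, Real.log_mul (by positivity) (by positivity), Real.log_pow, ← hW]
    have := Real.log_le_self (show 0 ≤ L by linarith)
    push_cast
    linarith
  calc 6 * Real.log B / e = 6 * Real.log B * (1 / e) := (mul_one_div _ _).symm
    _ ≤ 6 * (W + 2 * L) * (5 * L / c) := by rw [heinv]; gcongr
    _ = (30 * W * L + 60 * L ^ 2) / c := by ring
    _ ≤ (30 * W + 65) / c * L ^ 2 := by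
      rw [div_mul_eq_mul_div]
      gcongr
      nlinarith [mul_le_mul_of_nonneg_left hL2 hW0]
    _ ≤ _ := by
      have : 0 ≤ C * L ^ 2 := by positivity
      linarith

/-- **The region and the bound for the logarithmic derivative in it.** -/
theorem exists_classical_region : ∃ a C, 0 < a ∧ a ≤ 1 ∧ 0 ≤ C ∧ ∀ s : ℂ,
    1 - a / ell s.im ≤ s.re → s.re ≤ 2 →
      riemannZeta₁ s ≠ 0 ∧ ‖errLog s‖ ≤ C * ell s.im ^ 2 := by
  obtain ⟨c, hc, hc1, h⟩ := exists_zero_free_ell
  obtain ⟨K, hK0, hK⟩ := exists_logDeriv_high hc hc1 h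
  have hin : ∀ s : ℂ, |s.im| ≤ 3 → 1 - c / 20 ≤ s.re → riemannZeta₁ s ≠ 0 := by
    intro s ht hr
    refine h s ?_
    have h3 : ell s.im ≤ 5 := by
      have h4 : ell s.im ≤ ell 3 := ell_mono (ht.trans_eq (by norm_num))
      refine h4.trans ?_
      unfold ell
      rw [Real.log_le_iff_le_exp (by positivity), abs_of_pos (by norm_num : (0 : ℝ) < 3)]
      calc (3 : ℝ) + 100 ≤ (2.7 : ℝ) ^ 5 := by norm_num
        _ ≤ Real.exp 1 ^ 5 :=
          pow_le_pow_left₀ (by norm_num) (by linarith [Real.exp_one_gt_d9]) 5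
        _ = _ := by rw [← Real.exp_nat_mul]; norm_num
    have : c / 5 ≤ c / ell s.im := div_le_div_of_nonneg_left hc.le (ell_pos _) h3
    linarith
  have hKc : IsCompact (Set.Icc (1 - c / 20) 2 ×ℂ Set.Icc (-3 : ℝ) 3) :=
    IsCompact.reProdIm isCompact_Icc isCompact_Icc
  obtain ⟨M, hM⟩ := hKc.exists_bound_of_continuousOn (f := errLog) fun s hs =>
    ((differentiableAt_errLog (hin s (abs_le.2 (Complex.mem_reProdIm.1 hs).2)
      (Complex.mem_reProdIm.1 hs).1.1)).continuousAt).continuousWithinAt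
  have hU := one_le_upperConst
  refine ⟨c / 5, |M| + K + upperConst, by positivity, by linarith, by positivity,
    fun s hs hs2 => ?_⟩
  obtain ⟨L, hL⟩ : ∃ L, L = ell s.im := ⟨_, rfl⟩
  have hL4 : 4 ≤ L := hL ▸ four_le_ell _
  rw [← hL] at hs ⊢
  have hcL : c / 5 / L ≤ c / L := by gcongr; linarith
  have hz : riemannZeta₁ s ≠ 0 := h s (by rw [← hL]; linarith)
  refine ⟨hz, ?_⟩
  have hL1 : 1 ≤ L ^ 2 := one_le_pow₀ (by linarith)
  have n1 : 0 ≤ |M| * L ^ 2 := by positivity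
  have n2 : 0 ≤ K * L ^ 2 := by positivity
  have n3 : 0 ≤ upperConst * L ^ 2 := by positivity
  rcases le_total |s.im| 3 with ht | ht
  · have hr : 1 - c / 20 ≤ s.re := by
      have : c / 5 / L ≤ c / 5 / 4 := div_le_div_of_nonneg_left (by positivity) (by norm_num) hL4
      linarith
    have := (hM s (Complex.mem_reProdIm.2 ⟨⟨hr, hs2⟩, abs_le.1 ht⟩)).trans (le_abs_self M)
    nlinarith [mul_le_mul_of_nonneg_left hL1 (abs_nonneg M)]
  · have hs1 : s ≠ 1 := fun hh => by rw [hh] at ht; norm_num at ht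
    have hzeta : riemannZeta s ≠ 0 := by
      rw [riemannZeta_eq_inv_sub_mul hs1]
      exact mul_ne_zero (inv_ne_zero (sub_ne_zero.2 hs1)) hz
    rw [errLog_eq hs1 hzeta]
    refine (norm_sub_le _ _).trans ?_
    rw [neg_div, norm_neg]
    have h1 := hK s ht (by rwa [← hL]) hs2
    rw [← hL] at h1
    have h2 : ‖riemannZeta s‖ ≤ upperConst * L := by
      have h2 := norm_riemannZeta_le (s := s) (by linarith) (by
        rw [← hL]
        have : c / 5 / L ≤ 2 / L := by gcongr; linarith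
        linarith)
      rwa [← hL] at h2
    have h3 : upperConst * L ≤ upperConst * L ^ 2 :=
      mul_le_mul_of_nonneg_left (le_self_pow₀ (by linarith) (by norm_num)) (by linarith)
    linarith

end FA.DLVP

end
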