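import Fermat.Agent.DelaValleePoussin.Region
import Fermat.Agent.ZeroFreeRegion.ErrorTerm

/-!
# The prime number theorem with the classical error term

`ψ x = x + O (x exp (-c √(log x)))`: the argument of `FA.ZeroFree` run in the classical region.
-/

set_option autoImplicit false

noncomputable section

namespace FA.DLVP

open Complex MeasureTheory Filter Topology Finset FA.ZeroFree
open scoped ArithmeticFunction.vonMangoldt Real Chebyshev

/-- `√(log x)`. -/
def root (x : ℝ) : ℝ := √(Real.log x)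

theorem root_mono {x y : ℝ} (hx : 1 ≤ x) (hxy : x ≤ y) : root x ≤ root y :=
  Real.sqrt_le_sqrt (Real.log_le_log (by linarith) hxy)

theorem root_le_log {x : ℝ} (hx : 3 ≤ x) : 1 ≤ root x ∧ root x ≤ Real.log x := by
  have h : 1 ≤ Real.log x := by
    rw [Real.le_log_iff_exp_le (by linarith)]
    linarith [Real.exp_one_lt_three]
  refine ⟨Real.one_le_sqrt.2 h, ?_⟩
  rw [root, Real.sqrt_le_left (by linarith)]
  exact le_self_pow₀ h (by norm_num)

theorem root_half {x : ℝ} (hx : 4 ≤ x) : root x / 2 ≤ root (x / 2) := by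
  have h4 : Real.log 4 ≤ Real.log x := Real.log_le_log (by norm_num) hx
  rw [show (4 : ℝ) = 2 ^ 2 by norm_num, Real.log_pow] at h4
  push_cast at h4
  refine Real.le_sqrt_of_sq_le ?_
  rw [div_pow, root, Real.sq_sqrt (Real.log_nonneg (by linarith)),
    Real.log_div (by linarith) two_ne_zero]
  linarith [Real.log_nonneg (show (1 : ℝ) ≤ x by linarith)]

/-- The bound for the integrand in the region. -/
theorem exists_shiftFn_bound : ∃ a C, 0 < a ∧ a ≤ 1 ∧ 0 ≤ C ∧ ∀ x : ℝ, 0 < x → ∀ σ y : ℝ,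
    1 - a / ell y ≤ σ → σ ≤ 2 →
      DifferentiableAt ℂ (shiftFn x) ((σ : ℂ) + y * I) ∧
        ‖shiftFn x ((σ : ℂ) + y * I)‖ ≤ C * x ^ σ * decay y := by
  obtain ⟨a, C, ha, ha1, hC, h⟩ := exists_classical_region
  obtain ⟨K, hK1, hK⟩ := ell_pow_le
  refine ⟨a, 4 * C * K, ha, ha1, by positivity, fun x hx σ y h1 h2 => ?_⟩
  have hσ : 1 / 2 ≤ σ := by
    have h3 : a / ell y ≤ 1 / 4 := by
      exact (div_le_div_of_nonneg_right ha1 (ell_pos y).le).trans
        (one_div_le_one_div_of_le (by norm_num) (four_le_ell y))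
    linarith
  obtain ⟨hz, hb⟩ := h ((σ : ℂ) + y * I) (by simpa using h1) (by simpa using h2)
  simp only [add_im, ofReal_im, mul_im, ofReal_re, I_im, I_re, mul_zero, mul_one, zero_add,
    add_zero] at hb
  have hs0 : (σ : ℂ) + y * I ≠ 0 := fun h => by
    have := congrArg Complex.re h
    simp at this
    linarith
  have hs1 : (σ : ℂ) + y * I + 1 ≠ 0 := fun h => by
    have := congrArg Complex.re h
    simp at this
    linarith
  refine ⟨((differentiableAt_id.const_cpow (Or.inl (Complex.ofReal_ne_zero.2 hx.ne'))).mul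
    (differentiableAt_errLog hz)).div (by fun_prop) (mul_ne_zero hs0 hs1), ?_⟩
  rw [shiftFn, norm_div, norm_mul, norm_cpow_eq_rpow_re_of_pos hx]
  simp only [add_re, ofReal_re, mul_re, I_re, mul_zero, ofReal_im, I_im, mul_one, sub_self,
    add_zero]
  rw [div_eq_mul_one_div]
  have e : (1 + y ^ 2) ^ (1 / 4 : ℝ) * (1 / (1 + y ^ 2)) = decay y := by
    rw [decay, one_div (1 + y ^ 2), ← Real.rpow_neg_one, ← Real.rpow_add (by positivity)]
    norm_num
  calc x ^ σ * ‖errLog ((σ : ℂ) + y * I)‖ *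
        (1 / ‖((σ : ℂ) + y * I) * ((σ : ℂ) + y * I + 1)‖)
      ≤ x ^ σ * (C * (K * (1 + y ^ 2) ^ (1 / 4 : ℝ))) * (4 / (1 + y ^ 2)) := by
        refine mul_le_mul ?_ (norm_kernel_inv_le hσ y) (by positivity) (by positivity)
        exact mul_le_mul_of_nonneg_left (hb.trans (mul_le_mul_of_nonneg_left ((pow_le_pow_right₀
          (by linarith [four_le_ell y]) (by norm_num : 2 ≤ 9)).trans (hK y)) hC))
          (Real.rpow_nonneg hx.le _)
    _ = 4 * C * K * x ^ σ * ((1 + y ^ 2) ^ (1 / 4 : ℝ) * (1 / (1 + y ^ 2))) := by ring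
    _ = _ := by rw [e]

/-- **The bound for the smoothed sum.** -/
theorem exists_smoothErr_bound : ∃ a C, 0 < a ∧ a ≤ 1 ∧ 0 ≤ C ∧ ∀ x T : ℝ, 3 ≤ x → 1 ≤ T →
    |smoothErr x| ≤ C * x * (x ^ (-(a / ell T)) + T ^ (-(1 / 2) : ℝ)) := by
  obtain ⟨a, C, ha, ha1, hC, hb⟩ := exists_shiftFn_bound
  obtain ⟨J, hJ⟩ : ∃ J, J = ∫ y, decay y := ⟨_, rfl⟩
  have hJ0 : 0 ≤ J := hJ ▸ integral_nonneg fun y => (decay_pos y).le
  refine ⟨a, C * (J + 3 * 8), ha, ha1, by positivity, fun x T hx hT => ?_⟩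
  have hx0 : 0 < x := by linarith
  have hlog : 1 ≤ Real.log x := by
    rw [Real.le_log_iff_exp_le hx0]
    linarith [Real.exp_one_lt_three]
  obtain ⟨σ₂, hσ₂⟩ : ∃ σ₂, σ₂ = 1 + 1 / Real.log x := ⟨_, rfl⟩
  have h12 : 1 < σ₂ := by
    rw [hσ₂]
    have : 0 < 1 / Real.log x := by positivity
    linarith
  have h22 : σ₂ ≤ 2 := by
    rw [hσ₂]
    have : 1 / Real.log x ≤ 1 := (div_le_one (by linarith)).2 hlog
    linarith
  have hxσ₂ : x ^ σ₂ ≤ 3 * x := by
    rw [hσ₂, Real.rpow_add hx0, Real.rpow_one, mul_comm]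
    refine mul_le_mul_of_nonneg_right (le_of_eq_of_le ?_ Real.exp_one_lt_three.le) hx0.le
    rw [Real.rpow_def_of_pos hx0, mul_one_div_cancel (by linarith)]
  obtain ⟨σ₁, hσ₁⟩ : ∃ σ₁, σ₁ = 1 - a / ell T := ⟨_, rfl⟩
  have hq : 0 < a / ell T := div_pos ha (ell_pos T)
  have h11 : σ₁ ≤ 1 := by linarith
  have hinreg : ∀ σ y : ℝ, |y| ≤ T → σ₁ ≤ σ → 1 - a / ell y ≤ σ := by
    intro σ y hy hσ
    have h3 : a / ell T ≤ a / ell y := div_le_div_of_nonneg_left ha.le
      (ell_pos y) (ell_mono (by rwa [abs_of_pos (by linarith : (0 : ℝ) < T)]))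
    linarith
  have hright : ∀ y : ℝ, 1 - a / ell y ≤ σ₂ := fun y => by
    have : 0 < a / ell y := div_pos ha (ell_pos y)
    linarith
  obtain ⟨f, hf⟩ : ∃ f : ℝ → ℂ, f = fun y : ℝ => shiftFn x ((σ₂ : ℂ) + y * I) := ⟨_, rfl⟩
  have hfc : Continuous f := by
    refine hf ▸ continuous_iff_continuousAt.2 fun y => ?_
    exact ContinuousAt.comp' (g := shiftFn x) ((hb x hx0 σ₂ y (hright y) h22).1.continuousAt)
      (by fun_prop)
  have hfb : ∀ y, ‖f y‖ ≤ C * (3 * x) * decay y := fun y => by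
    rw [hf]
    refine ((hb x hx0 σ₂ y (hright y) h22).2).trans ?_
    gcongr
    exact (decay_pos y).le
  have hfi : Integrable f := (integrable_decay.const_mul (C * (3 * x))).mono'
    hfc.aestronglyMeasurable (Eventually.of_forall hfb)
  have hcompl : (Set.Icc (-T) T)ᶜ ⊆ Set.Iio (-T) ∪ Set.Ioi T := by
    intro y hy
    simp only [Set.mem_compl_iff, Set.mem_Icc, not_and_or, not_le] at hy
    exact hy
  -- the tails
  have hT0 : 0 < T := by linarith
  have hdint : ∫ y in Set.Ioi T, decay y ≤ 2 * T ^ (-(1 / 2) : ℝ) := by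
    refine (setIntegral_mono_on integrable_decay.integrableOn
      (integrableOn_Ioi_rpow_of_lt (by norm_num : (-(3 / 2) : ℝ) < -1) hT0) measurableSet_Ioi
      fun y hy => decay_le (hT0.trans hy)).trans (le_of_eq ?_)
    rw [integral_Ioi_rpow_of_lt (by norm_num) hT0]
    norm_num
    ring
  have hdneg : ∫ y in Set.Iio (-T), decay y = ∫ y in Set.Ioi T, decay y := by
    rw [← integral_Iic_eq_integral_Iio, ← integral_comp_neg_Ioi]
    simp [decay]
  have htail : ‖(∫ y, f y) - ∫ y in (-T)..T, f y‖ ≤ C * (3 * x) * (4 * T ^ (-(1 / 2) : ℝ)) := by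
    rw [intervalIntegral.integral_of_le (by linarith), ← integral_Icc_eq_integral_Ioc,
      ← integral_add_compl (s := Set.Icc (-T) T) measurableSet_Icc hfi, add_sub_cancel_left]
    refine (norm_integral_le_of_norm_le (integrable_decay.const_mul _).integrableOn
      (Eventually.of_forall hfb)).trans ?_
    rw [integral_const_mul]
    refine mul_le_mul_of_nonneg_left ?_ (by positivity)
    refine (setIntegral_mono_set integrable_decay.integrableOn
      (Eventually.of_forall fun y => (decay_pos y).le) hcompl.eventuallyLE).trans ?_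
    rw [setIntegral_union (Set.disjoint_left.2 fun y h1 h2 => by
        simp only [Set.mem_Iio] at h1
        simp only [Set.mem_Ioi] at h2
        linarith) measurableSet_Ioi integrable_decay.integrableOn integrable_decay.integrableOn,
      hdneg]
    linarith
  -- the rectangle
  have hrect := Complex.integral_boundary_rect_eq_zero_of_differentiableOn (shiftFn x)
    ((σ₁ : ℂ) + ((-T : ℝ) : ℂ) * I) ((σ₂ : ℂ) + (T : ℂ) * I) (fun s hs => by
      rw [Complex.mem_reProdIm] at hs
      simp only [add_re, ofReal_re, mul_re, I_re, mul_zero, ofReal_im, I_im, mul_one, sub_self,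
        add_zero, add_im, mul_im, zero_add, Set.uIcc_of_le (h11.trans h12.le),
        Set.uIcc_of_le (show -T ≤ T by linarith)] at hs
      have := (hb x hx0 s.re s.im (hinreg _ _ (abs_le.2 hs.2) hs.1.1) (hs.1.2.trans h22)).1
      rw [Complex.re_add_im] at this
      exact this.differentiableWithinAt)
  simp only [add_re, ofReal_re, mul_re, I_re, mul_zero, ofReal_im, I_im, mul_one, sub_self,
    add_zero, add_im, mul_im, zero_add] at hrect
  obtain ⟨P, hP⟩ : ∃ P : ℝ → ℂ, P = fun v : ℝ =>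
      ∫ u in σ₁..σ₂, shiftFn x ((u : ℂ) + (v : ℂ) * I) := ⟨_, rfl⟩
  obtain ⟨Q, hQ⟩ : ∃ Q : ℂ, Q = ∫ y in (-T)..T, shiftFn x ((σ₁ : ℂ) + y * I) := ⟨_, rfl⟩
  have hcentral : ‖Q‖ ≤ C * x ^ σ₁ * J := by
    rw [hQ]
    refine (intervalIntegral.norm_integral_le_of_norm_le (by linarith)
      (Eventually.of_forall fun y hy => (hb x hx0 σ₁ y (hinreg σ₁ y ?_ le_rfl)
        (by linarith)).2) (integrable_decay.const_mul _).intervalIntegrable).trans ?_
    · exact abs_le.2 ⟨hy.1.le, hy.2⟩
    · rw [intervalIntegral.integral_const_mul, intervalIntegral.integral_of_le (by linarith), hJ]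
      refine mul_le_mul_of_nonneg_left (setIntegral_le_integral integrable_decay
        (Eventually.of_forall fun y => (decay_pos y).le)) (by positivity)
  have hhor : ∀ v : ℝ, |v| = T → ‖P v‖ ≤ C * (3 * x) * T ^ (-(1 / 2) : ℝ) * 2 := by
    intro v hv
    rw [hP]
    refine (intervalIntegral.norm_integral_le_of_norm_le_const
      (C := C * (3 * x) * decay T) fun u hu => ?_).trans ?_
    · rw [Set.uIoc_of_le (h11.trans h12.le)] at hu
      refine (hb x hx0 u v (hinreg u v hv.le hu.1.le) (hu.2.trans h22)).2.trans (le_of_eq_of_le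
        (?_ : _ = C * x ^ u * decay T) ?_)
      · rw [show decay v = decay T by unfold decay; rw [← sq_abs v, hv]]
      · gcongr
        · exact (decay_pos T).le
        · exact (Real.rpow_le_rpow_of_exponent_le (by linarith) hu.2).trans hxσ₂
    · have hσ12 : |σ₂ - σ₁| ≤ 2 := by
        have h9 : a / ell T ≤ 1 := (div_le_one (ell_pos T)).2
          (ha1.trans (by linarith [four_le_ell T]))
        rw [abs_le]
        constructor <;> linarith
      refine mul_le_mul (mul_le_mul_of_nonneg_left ((decay_le hT0).trans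
        (Real.rpow_le_rpow_of_exponent_le hT (by norm_num))) (by positivity)) hσ12 (abs_nonneg _)
        (by positivity)
  have hmid : ‖∫ y in (-T)..T, f y‖ ≤
      C * x ^ σ₁ * J + C * (3 * x) * T ^ (-(1 / 2) : ℝ) * 4 := by
    have e : I * (∫ y in (-T)..T, f y) = I * Q + P T - P (-T) := by
      rw [hf, hQ, hP]
      simp only [smul_eq_mul] at hrect
      linear_combination hrect
    have := congrArg (fun z : ℂ => ‖z‖) e
    simp only [norm_mul, Complex.norm_I, one_mul] at this
    rw [this]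
    refine (norm_sub_le _ _).trans ((add_le_add (norm_add_le _ _) le_rfl).trans ?_)
    rw [norm_mul, Complex.norm_I, one_mul]
    linarith [hhor T (abs_of_pos hT0), hhor (-T) (by rw [abs_neg, abs_of_pos hT0]), hcentral]
  have htotal : ‖∫ y, f y‖ ≤ C * x ^ σ₁ * J + C * (3 * x) * T ^ (-(1 / 2) : ℝ) * 8 := by
    have := norm_le_norm_add_norm_sub' (∫ y, f y) (∫ y in (-T)..T, f y)
    linarith
  have hs := smoothErr_eq hx0 h12
  rw [← Real.norm_eq_abs, ← Complex.norm_real, hs, norm_smul, Real.norm_eq_abs,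
    abs_of_pos (by positivity)]
  have hpi : 1 / (2 * π) ≤ 1 := by
    rw [div_le_one (by positivity)]
    linarith [Real.two_le_pi]
  refine (mul_le_of_le_one_left (norm_nonneg _) hpi).trans ?_
  rw [hf] at htotal
  refine htotal.trans ?_
  rw [hσ₁, sub_eq_add_neg, Real.rpow_add hx0, Real.rpow_one]
  have p1 : 0 ≤ C * x * T ^ (-(1 / 2) : ℝ) * J := by positivity
  have p2 : 0 ≤ C * x * x ^ (-(a / ell T)) * 24 := by positivity
  linarith

/-- `ψ₁ x = x² / 2 + O (x² exp (-c √(log x)))`. -/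
theorem exists_psiOne_bound : ∃ c C, 0 < c ∧ c ≤ 1 ∧ 0 ≤ C ∧ ∀ x : ℝ, 3 ≤ x →
    |psiOne x - x ^ 2 / 2| ≤ C * x ^ 2 * Real.exp (-(c * root x)) := by
  obtain ⟨a, C, ha, ha1, hC, h⟩ := exists_smoothErr_bound
  obtain ⟨c, hc⟩ : ∃ c, c = a / 6 := ⟨_, rfl⟩
  have hc0 : 0 < c := by rw [hc]; positivity
  have hc1 : c ≤ 1 / 2 := by
    rw [hc]
    linarith
  refine ⟨c, 2 * C + 1, hc0, by linarith, by positivity, fun x hx => ?_⟩
  obtain ⟨hu1, hul⟩ := root_le_log hx
  have hx0 : 0 < x := by linarith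
  obtain ⟨u, hu⟩ : ∃ u, u = root x := ⟨_, rfl⟩
  rw [← hu] at hu1 hul ⊢
  have hlog0 : 0 ≤ Real.log x := by linarith
  have hu2 : u ^ 2 = Real.log x := by rw [hu, root, Real.sq_sqrt hlog0]
  obtain ⟨E, hE⟩ : ∃ E, E = Real.exp (-(c * u)) := ⟨_, rfl⟩
  rw [← hE]
  have h1 := h x (Real.exp u) hx (Real.one_le_exp (by linarith))
  have hell : ell (Real.exp u) ≤ 6 * u := by
    unfold ell
    rw [Real.log_le_iff_le_exp (by positivity), abs_of_pos (Real.exp_pos u),
      show 6 * u = u + 5 * u by ring, Real.exp_add]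
    have h5 : (101 : ℝ) ≤ Real.exp (5 * u) :=
      calc (101 : ℝ) ≤ (2.7 : ℝ) ^ 5 := by norm_num
        _ ≤ Real.exp 1 ^ 5 :=
          pow_le_pow_left₀ (by norm_num) (by linarith [Real.exp_one_gt_d9]) 5
        _ = Real.exp ((5 : ℕ) * 1) := (Real.exp_nat_mul 1 5).symm
        _ ≤ _ := Real.exp_le_exp.2 (by norm_num; linarith)
    nlinarith [Real.one_le_exp (show 0 ≤ u by linarith)]
  have e1 : x ^ (-(a / ell (Real.exp u))) ≤ E := by
    rw [Real.rpow_def_of_pos hx0, hE]
    refine Real.exp_le_exp.2 ?_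
    have h9 : a / (6 * u) ≤ a / ell (Real.exp u) :=
      div_le_div_of_nonneg_left ha.le (ell_pos _) hell
    have h10 := mul_le_mul_of_nonneg_left h9 hlog0
    have : Real.log x * (a / (6 * u)) = c * u := by
      rw [← hu2, hc]
      have : u ≠ 0 := by linarith
      field_simp
    linarith
  have e2 : Real.exp u ^ (-(1 / 2) : ℝ) ≤ E := by
    rw [← Real.exp_mul, hE]
    refine Real.exp_le_exp.2 ?_
    have := mul_le_mul_of_nonneg_right hc1 (show 0 ≤ u by linarith)
    linarith
  have hS : |smoothErr x| ≤ C * x * (2 * E) :=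
    h1.trans (mul_le_mul_of_nonneg_left (by linarith) (by positivity))
  have hxE : x ≤ x ^ 2 * E := by
    have h11 : x⁻¹ ≤ E := by
      rw [hE, ← Real.exp_log (inv_pos.2 hx0), Real.log_inv]
      refine Real.exp_le_exp.2 (neg_le_neg ?_)
      exact (mul_le_of_le_one_left (by linarith) (by linarith)).trans hul
    calc x = x ^ 2 * x⁻¹ := by field_simp
      _ ≤ _ := mul_le_mul_of_nonneg_left h11 (by positivity)
  have hsplit : psiOne x = x * smoothErr x + ∑ n ∈ Icc 1 ⌊x⌋₊, (x - n) := by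
    rw [psiOne, smoothErr, mul_sum, ← sum_add_distrib]
    refine sum_congr rfl fun n _ => ?_
    field_simp
    ring
  have hgauss : ∀ m : ℕ, ∑ n ∈ Icc 1 m, (n : ℝ) = (m : ℝ) * (m + 1) / 2 := fun m => by
    induction m with
    | zero => simp
    | succ k ih =>
      rw [sum_Icc_succ_top (by omega), ih]
      push_cast
      ring
  have hlin : |∑ n ∈ Icc 1 ⌊x⌋₊, (x - n) - x ^ 2 / 2| ≤ x := by
    rw [sum_sub_distrib, hgauss, sum_const, Nat.card_Icc, Nat.add_sub_cancel, nsmul_eq_mul,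
      abs_le]
    have := Nat.floor_le hx0.le
    have := Nat.lt_floor_add_one x
    constructor <;> nlinarith
  rw [hsplit]
  have h12 : |x * smoothErr x| ≤ x * (C * x * (2 * E)) := by
    rw [abs_mul, abs_of_pos hx0]
    exact mul_le_mul_of_nonneg_left hS hx0.le
  rw [abs_le] at hlin h12 ⊢
  constructor <;> nlinarith

/-- **The error term.** -/
theorem exists_psi_error_classical : ∃ c C, 0 < c ∧ 0 < C ∧ ∀ x : ℝ, 2 ≤ x →
    |ψ x - x| ≤ C * x * Real.exp (-(c * root x)) := by
  obtain ⟨c, C, hc, hc1, hC, h⟩ := exists_psiOne_bound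
  obtain ⟨B, hB⟩ : ∃ B : ℝ, B = Real.log 4 + 5 := ⟨_, rfl⟩
  have hB5 : 5 ≤ B := by
    rw [hB]
    linarith [Real.log_nonneg (by norm_num : (1 : ℝ) ≤ 4)]
  have htriv : ∀ x : ℝ, 0 ≤ x → |ψ x - x| ≤ B * x := fun x hx => by
    have h1 := Chebyshev.psi_le_const_mul_self hx
    have h2 := Chebyshev.psi_nonneg x
    have h3 : 0 ≤ Real.log 4 * x := mul_nonneg (Real.log_nonneg (by norm_num)) hx
    rw [hB, abs_le]
    constructor <;> nlinarith
  refine ⟨c / 4, 2 * B + 1 + 8 * C + B * Real.exp 2, by positivity, by positivity,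
    fun x hx => ?_⟩
  have hx0 : 0 < x := by linarith
  obtain ⟨η, hη⟩ : ∃ η, η = Real.exp (-(c / 4 * root x)) := ⟨_, rfl⟩
  rw [← hη]
  have hη0 : 0 < η := hη ▸ Real.exp_pos _
  have hBe : 0 ≤ B * Real.exp 2 * (x * η) := by positivity
  have hC8 : 0 ≤ 8 * C * (x * η) := by positivity
  have h2B : 0 ≤ 2 * B * (x * η) := by positivity
  rcases lt_or_ge x 6 with hx6 | hx6
  · have hsmall : 1 ≤ Real.exp 2 * η := by
      rw [hη, ← Real.exp_add]
      refine Real.one_le_exp ?_
      have h0 : 0 ≤ Real.log x := Real.log_nonneg (by linarith)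
      have h3 : root x ≤ 8 := by
        rw [root, Real.sqrt_le_left (by norm_num)]
        linarith [Real.log_le_sub_one_of_pos hx0]
      have h4 : c / 4 * root x ≤ 1 / 4 * 8 :=
        mul_le_mul (by linarith) h3 (Real.sqrt_nonneg _) (by norm_num)
      linarith
    refine (htriv x hx0.le).trans ?_
    have h4 : B * x ≤ B * Real.exp 2 * (x * η) :=
      calc B * x = B * x * 1 := (mul_one _).symm
        _ ≤ B * x * (Real.exp 2 * η) := mul_le_mul_of_nonneg_left hsmall (by positivity)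
        _ = _ := by ring
    nlinarith
  rcases lt_or_ge (1 / 2) η with hbig | hsm
  · refine (htriv x hx0.le).trans ?_
    have h5 : B * x ≤ 2 * B * (x * η) := by
      calc B * x = 2 * B * (x * (1 / 2)) := by ring
        _ ≤ _ := by gcongr
    nlinarith
  obtain ⟨hd, hd'⟩ : ∃ hd, hd = x * η := ⟨_, rfl⟩
  have hd0 : 0 < hd := hd' ▸ mul_pos hx0 hη0
  have hdx : hd ≤ x / 2 := by
    rw [hd']
    have := mul_le_mul_of_nonneg_left hsm hx0.le
    linarith
  have hu0 : 0 ≤ root x := Real.sqrt_nonneg _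
  have hdown : Real.exp (-(c * root x)) ≤ η * η := by
    rw [hη, ← Real.exp_add]
    refine Real.exp_le_exp.2 ?_
    have := mul_nonneg hc.le hu0
    linarith
  have hdown' : ∀ z : ℝ, x / 2 ≤ z → Real.exp (-(c * root z)) ≤ η * η := by
    intro z hz
    rw [hη, ← Real.exp_add]
    refine Real.exp_le_exp.2 ?_
    have h6 := (root_half (by linarith : (4 : ℝ) ≤ x)).trans (root_mono (by linarith) hz)
    have := mul_le_mul_of_nonneg_left h6 hc.le
    linarith
  have hgap : ∀ z : ℝ, x / 2 ≤ z → z ≤ 3 * x / 2 →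
      |psiOne z - z ^ 2 / 2| ≤ 4 * C * x ^ 2 * (η * η) := by
    intro z hz hz'
    refine (h z (by linarith)).trans ?_
    calc C * z ^ 2 * Real.exp (-(c * root z)) ≤ C * (4 * x ^ 2) * (η * η) := by
          refine mul_le_mul (mul_le_mul_of_nonneg_left ?_ hC) (hdown' z hz) (Real.exp_pos _).le
            (by positivity)
          nlinarith
      _ = _ := by ring
  have g0 := hgap x (by linarith) (by linarith)
  have gp := hgap (x + hd) (by linarith) (by linarith)
  have gm := hgap (x - hd) (by linarith) (by linarith)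
  have up := (psiOne_sub_bounds (x := x) (y := x + hd) hx0.le (by linarith)).1
  have lo := (psiOne_sub_bounds (x := x - hd) (y := x) (by linarith) (by linarith)).2
  rw [abs_le] at g0 gp gm
  have hkey : 8 * C * x ^ 2 * (η * η) = hd * (8 * C * (x * η)) := by rw [hd']; ring
  have hup : ψ x ≤ x + hd / 2 + 8 * C * (x * η) := by
    refine le_of_mul_le_mul_left ?_ hd0
    nlinarith
  have hlo : x - hd / 2 - 8 * C * (x * η) ≤ ψ x := by
    refine le_of_mul_le_mul_left ?_ hd0
    nlinarith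
  rw [abs_le]
  constructor <;> nlinarith

end FA.DLVP

end
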